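import Fermat.Agent.X0Fld.Datum
import Fermat.Agent.Cover.W
import Fermat.Agent.X0Count.Main
import Fermat.Prelude.Def_ModularCurve_GenusNumerics

/-!
# Riemann–Hurwitz for `X₀(N) → X(1)`: `deg W = 2 g - 2` (package BRIDGE)
-/

set_option autoImplicit false

open UpperHalfPlane ModularForm CongruenceSubgroup
open scoped MatrixGroups Manifold

namespace Fermat.Agent.X0Bridge

open Fermat.Agent.X0Fld Fermat.Agent.CoverL Fermat.Agent.RRL

theorem main_Ginf_eq_Kinf : (Ginf : Subgroup SL(2, ℤ)) = X0Count.Kinf :=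
  Subgroup.ext fun _ => Iff.rfl

/-- number of points of the curve above a finite point `c` of the `j`-line -/
theorem main_card_fin (N : ℕ) [NeZero N] (c : ℂ) (h0 : c ≠ 0) (h1 : c ≠ 1728) :
    Nat.card (DoubleCoset.Quotient ((Gamma0 N : Subgroup SL(2, ℤ)) : Set SL(2, ℤ))
      ((Gfin c : Subgroup SL(2, ℤ)) : Set SL(2, ℤ))) = ModularCurve.dedekindPsi N := by
  rw [Gfin_generic h0 h1]
  exact X0Count.card_doubleCoset_neg_one N

/-- Riemann–Hurwitz: `deg W = 2 g - 2` with `g` the genus formula. -/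
theorem deg_W_eq (N : ℕ) [NeZero N] :
    ((PreCurve.deg (datum N).W : ℤ) : ℚ) = 2 * ModularCurve.genusFormula N - 2 := by
  have hdeg := (datum N).deg_W
  have hidx : ((datum N).H.index : ℤ) = (ModularCurve.dedekindPsi N : ℤ) := by
    rw [datum_H, X0Count.index_Gamma0]
  have hinf : (Nat.card (DoubleCoset.Quotient ((datum N).H : Set SL(2, ℤ))
      ((datum N).G OnePoint.infty : Set SL(2, ℤ))) : ℤ) = (ModularCurve.cuspCount N : ℤ) := by
    rw [datum_H, datum_G_infty, main_Ginf_eq_Kinf, X0Count.card_doubleCoset_Kinf]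
  have hterm : ∀ c : ℂ, ((datum N).H.index : ℤ)
      - (Nat.card (DoubleCoset.Quotient ((datum N).H : Set SL(2, ℤ))
          ((datum N).G (c : OnePoint ℂ) : Set SL(2, ℤ))) : ℤ)
      = (ModularCurve.dedekindPsi N : ℤ)
        - (Nat.card (DoubleCoset.Quotient ((Gamma0 N : Subgroup SL(2, ℤ)) : Set SL(2, ℤ))
          ((Gfin c : Subgroup SL(2, ℤ)) : Set SL(2, ℤ))) : ℤ) := by
    intro c
    rw [hidx]
    rfl
  have hsum : (∑ᶠ c : ℂ, (((datum N).H.index : ℤ)
      - (Nat.card (DoubleCoset.Quotient ((datum N).H : Set SL(2, ℤ))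
          ((datum N).G (c : OnePoint ℂ) : Set SL(2, ℤ))) : ℤ)))
      = ((ModularCurve.dedekindPsi N : ℤ)
          - (Nat.card (DoubleCoset.Quotient ((Gamma0 N : Subgroup SL(2, ℤ)) : Set SL(2, ℤ))
            ((Subgroup.zpowers (ModularGroup.S * ModularGroup.T) : Subgroup SL(2, ℤ)) :
              Set SL(2, ℤ))) : ℤ))
        + ((ModularCurve.dedekindPsi N : ℤ)
          - (Nat.card (DoubleCoset.Quotient ((Gamma0 N : Subgroup SL(2, ℤ)) : Set SL(2, ℤ))
            ((Subgroup.zpowers ModularGroup.S : Subgroup SL(2, ℤ)) : Set SL(2, ℤ))) : ℤ)) := by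
    rw [finsum_congr hterm]
    rw [finsum_eq_sum_of_support_subset (s := ({0, 1728} : Finset ℂ))]
    · rw [Finset.sum_pair (by norm_num : (0 : ℂ) ≠ 1728), Gfin_zero, Gfin_1728]
    · intro c hc
      rw [Function.mem_support] at hc
      by_contra hcon
      simp only [Finset.coe_insert, Finset.coe_singleton, Set.mem_insert_iff,
        Set.mem_singleton_iff, not_or] at hcon
      apply hc
      rw [main_card_fin N c hcon.1 hcon.2, sub_self]
  rw [hsum, hidx, hinf] at hdeg
  have h2 := X0Count.two_mul_card_doubleCoset_S N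
  have h3 := X0Count.three_mul_card_doubleCoset_ST N
  generalize Nat.card (DoubleCoset.Quotient ((Gamma0 N : Subgroup SL(2, ℤ)) : Set SL(2, ℤ))
      ((Subgroup.zpowers ModularGroup.S : Subgroup SL(2, ℤ)) : Set SL(2, ℤ))) = cS at hdeg h2
  generalize Nat.card (DoubleCoset.Quotient ((Gamma0 N : Subgroup SL(2, ℤ)) : Set SL(2, ℤ))
      ((Subgroup.zpowers (ModularGroup.S * ModularGroup.T) : Subgroup SL(2, ℤ)) :
        Set SL(2, ℤ))) = cST at hdeg h3
  have h2' : (2 : ℚ) * (cS : ℚ) = (ModularCurve.dedekindPsi N : ℚ) + ModularCurve.nuTwo N := by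
    exact_mod_cast h2
  have h3' : (3 : ℚ) * (cST : ℚ)
      = (ModularCurve.dedekindPsi N : ℚ) + 2 * ModularCurve.nuThree N := by
    exact_mod_cast h3
  rw [hdeg, ← X0Count.genus_arith N]
  push_cast
  linarith

end Fermat.Agent.X0Bridge
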