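import Fermat.Agent.X0Bridge.Forms
import Fermat.Agent.Cover.Main

/-!
# Elements of `L(W)` come from cusp forms of weight 2 (package BRIDGE)
-/

set_option autoImplicit false

open UpperHalfPlane ModularForm CongruenceSubgroup
open scoped MatrixGroups Manifold

namespace Fermat.Agent.X0Bridge

open Fermat.Agent.X0Fld Fermat.Agent.CoverL Fermat.Agent.RRL

/-- the function of `actB N γ⁻¹ h` is `z ↦ h (γ • z)` -/
theorem backward_actB_inv_apply (N : ℕ) (h : B N) (γ : SL(2, ℤ)) (z : ℍ) :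
    ((actB N γ⁻¹ h : B N) : ℍ → ℂ) z = (h : ℍ → ℂ) (γ • z) := by
  rw [coe_actB, act_apply, inv_inv]

/-- Step 2 (transformation law): the slash translates of `f` are quotients of the same shape. -/
theorem slash_eq_of_mul_eq (N : ℕ) (a b : B N) (f : ℍ → ℂ)
    (hf : ∀ z : ℍ, f z * ((b : ℍ → ℂ) z * discriminant z) = (a : ℍ → ℂ) z * (E₄ z ^ 2 * E₆ z))
    (γ : SL(2, ℤ)) (z : ℍ) :
    (f ∣[(2 : ℤ)] γ) z * (((actB N γ⁻¹ b : B N) : ℍ → ℂ) z * discriminant z) =
      ((actB N γ⁻¹ a : B N) : ℍ → ℂ) z * (E₄ z ^ 2 * E₆ z) := by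
  have h1 := hf (γ • z)
  rw [X0L1.E₄_smul, X0L1.E₆_smul, X0L1.discriminant_smul] at h1
  rw [backward_actB_inv_apply, backward_actB_inv_apply, ModularForm.SL_slash_apply]
  have hd : denom γ z ≠ 0 := denom_ne_zero γ z
  have h2 : f (γ • z) * (b : ℍ → ℂ) (γ • z) * discriminant z * denom γ z ^ 12 =
      (a : ℍ → ℂ) (γ • z) * (E₄ z ^ 2 * E₆ z) * denom γ z ^ 14 := by
    linear_combination h1
  have h3 : f (γ • z) * (b : ℍ → ℂ) (γ • z) * discriminant z =
      (a : ℍ → ℂ) (γ • z) * (E₄ z ^ 2 * E₆ z) * denom γ z ^ 2 := by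
    have h4 : (f (γ • z) * (b : ℍ → ℂ) (γ • z) * discriminant z -
        (a : ℍ → ℂ) (γ • z) * (E₄ z ^ 2 * E₆ z) * denom γ z ^ 2) * denom γ z ^ 12 = 0 := by
      linear_combination h2
    rcases mul_eq_zero.mp h4 with h5 | h5
    · exact sub_eq_zero.mp h5
    · exact absurd h5 (pow_ne_zero 12 hd)
  have h6 : (denom γ z) ^ (-(2 : ℤ)) = ((denom γ z) ^ 2)⁻¹ := by
    rw [zpow_neg]; norm_cast
  rw [h6]
  field_simp
  linear_combination h3

/-- the slash translates of a holomorphic function are holomorphic -/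
theorem backward_mdiff_slash (f : ℍ → ℂ) (hfm : MDiff f) (γ : SL(2, ℤ)) :
    MDiff (f ∣[(2 : ℤ)] γ) := by
  rw [ModularForm.SL_slash]
  exact hfm.slash 2 _

/-- Step 3 (invariance): if `a / b` is fixed by `Γ₀(N)` then `f` is slash invariant. -/
theorem slashInv_of_mem_F (N : ℕ) [NeZero N] (a b : B N) (hb : b ≠ 0) (f : ℍ → ℂ) (hfm : MDiff f)
    (hf : ∀ z : ℍ, f z * ((b : ℍ → ℂ) z * discriminant z) = (a : ℍ → ℂ) z * (E₄ z ^ 2 * E₆ z))
    (hF : algebraMap (B N) (Fld N) a / algebraMap (B N) (Fld N) b ∈ (datum N).F)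
    (γ : SL(2, ℤ)) (hγ : γ ∈ Gamma0 N) : f ∣[(2 : ℤ)] γ = f := by
  have hinj : Function.Injective (algebraMap (B N) (Fld N)) := IsFractionRing.injective _ _
  have hb' : actB N γ⁻¹ b ≠ 0 := fun h => hb ((actB N γ⁻¹).injective (by rw [h, map_zero]))
  have hbF : algebraMap (B N) (Fld N) b ≠ 0 := fun h => hb (hinj (by rw [h, map_zero]))
  have hbF' : algebraMap (B N) (Fld N) (actB N γ⁻¹ b) ≠ 0 :=
    fun h => hb' (hinj (by rw [h, map_zero]))
  -- the invariance of the quotient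
  have h1 : rho N γ⁻¹ (algebraMap (B N) (Fld N) a / algebraMap (B N) (Fld N) b) =
      algebraMap (B N) (Fld N) a / algebraMap (B N) (Fld N) b :=
    ((datum N).mem_F _).1 hF γ⁻¹ ((Gamma0 N).inv_mem hγ)
  rw [map_div₀, rho_algebraMap, rho_algebraMap, div_eq_div_iff hbF' hbF, ← map_mul, ← map_mul] at h1
  have h2 : actB N γ⁻¹ a * b = a * actB N γ⁻¹ b := hinj h1
  have h3 : ∀ z : ℍ, ((actB N γ⁻¹ a : B N) : ℍ → ℂ) z * (b : ℍ → ℂ) z =
      (a : ℍ → ℂ) z * ((actB N γ⁻¹ b : B N) : ℍ → ℂ) z := by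
    intro z
    have := congrFun (congrArg Subtype.val h2) z
    simpa using this
  -- the product identity
  have h4 : (f ∣[(2 : ℤ)] γ - f) *
      (fun z : ℍ => (((actB N γ⁻¹ b * b : B N) : B N) : ℍ → ℂ) z * discriminant z) = 0 := by
    funext z
    have e1 := slash_eq_of_mul_eq N a b f hf γ z
    have e2 := hf z
    have e3 := h3 z
    have e4 : (((actB N γ⁻¹ b * b : B N) : B N) : ℍ → ℂ) z =
        ((actB N γ⁻¹ b : B N) : ℍ → ℂ) z * (b : ℍ → ℂ) z := rfl
    simp only [Pi.mul_apply, Pi.sub_apply, Pi.zero_apply]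
    rw [e4]
    linear_combination (b : ℍ → ℂ) z * e1 - ((actB N γ⁻¹ b : B N) : ℍ → ℂ) z * e2 +
      (E₄ z ^ 2 * E₆ z) * e3
  have hm1 : MDiff (f ∣[(2 : ℤ)] γ - f) := (backward_mdiff_slash f hfm γ).sub hfm
  have hm2 : MDiff (fun z : ℍ => (((actB N γ⁻¹ b * b : B N) : B N) : ℍ → ℂ) z * discriminant z) :=
    (actB N γ⁻¹ b * b).2.mdiff.mul mdiff_discriminant
  rcases (UpperHalfPlane.mul_eq_zero_iff hm1 hm2).mp h4 with h5 | h5
  · exact sub_eq_zero.mp h5
  · exfalso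
    apply mul_ne_zero hb' hb
    apply Subtype.ext
    funext z
    have := congrFun h5 z
    simp only [Pi.zero_apply, mul_eq_zero] at this
    rcases this with h6 | h6
    · exact h6
    · exact absurd h6 (discriminant_ne_zero z)

end Fermat.Agent.X0Bridge
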