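import Mathlib

/-!
# Division of holomorphic functions on the upper half plane (package BRIDGE, pure analysis)
-/

set_option autoImplicit false

open UpperHalfPlane
open scoped MatrixGroups Manifold

namespace Fermat.Agent.X0Bridge

/-- The open upper half plane, as a subset of `ℂ`, is preconnected. -/
theorem div_isPreconnected_upperHalfPlaneSet : IsPreconnected {z : ℂ | 0 < z.im} :=
  (convex_halfSpace_im_gt 0).isPreconnected

/-- A holomorphic function on `ℍ`, composed with `ofComplex`, is analytic on the upper half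
plane. -/
theorem div_analyticOnNhd (p : ℍ → ℂ) (hp : MDiff p) :
    AnalyticOnNhd ℂ (p ∘ ofComplex) {z : ℂ | 0 < z.im} :=
  (UpperHalfPlane.mdifferentiable_iff.mp hp).analyticOnNhd isOpen_upperHalfPlaneSet

theorem div_analyticAt (p : ℍ → ℂ) (hp : MDiff p) (z : ℍ) :
    AnalyticAt ℂ (p ∘ ofComplex) (z : ℂ) :=
  div_analyticOnNhd p hp z z.im_pos

theorem div_comp_ofComplex_apply (p : ℍ → ℂ) (z : ℍ) : (p ∘ ofComplex) (z : ℂ) = p z := by
  rw [Function.comp_apply, ofComplex_apply]

/-- a nonzero holomorphic function on `ℍ` has finite order everywhere -/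
theorem analyticOrderAt_ne_top_of_ne_zero (p : ℍ → ℂ) (hp : MDiff p) (hp0 : p ≠ 0) (z : ℍ) :
    analyticOrderAt (p ∘ ofComplex) (z : ℂ) ≠ ⊤ := by
  intro htop
  apply hp0
  have h1 : (p ∘ ofComplex) =ᶠ[nhds (z : ℂ)] 0 := analyticOrderAt_eq_top.mp htop
  have h2 := (div_analyticOnNhd p hp).eqOn_zero_of_preconnected_of_eventuallyEq_zero
    div_isPreconnected_upperHalfPlaneSet z.im_pos h1
  funext τ
  have h3 := h2 τ.im_pos
  rw [div_comp_ofComplex_apply] at h3
  exact h3

theorem analyticOrderAt_mul_of_mdiff (p q : ℍ → ℂ) (hp : MDiff p) (hq : MDiff q) (z : ℍ) :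
    analyticOrderAt ((p * q) ∘ ofComplex) (z : ℂ) =
      analyticOrderAt (p ∘ ofComplex) (z : ℂ) + analyticOrderAt (q ∘ ofComplex) (z : ℂ) := by
  have h : (p * q) ∘ ofComplex = (p ∘ ofComplex) * (q ∘ ofComplex) := rfl
  rw [h]
  exact analyticOrderAt_mul (div_analyticAt p hp z) (div_analyticAt q hq z)

/-- The quotient of two analytic germs has nonnegative order when the denominator has
finite order not exceeding that of the numerator. -/
theorem div_meromorphicOrderAt_div_nonneg {P Q : ℂ → ℂ} {z : ℂ} (hP : AnalyticAt ℂ P z)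
    (hQ : AnalyticAt ℂ Q z) (htop : analyticOrderAt Q z ≠ ⊤)
    (hle : analyticOrderAt Q z ≤ analyticOrderAt P z) : 0 ≤ meromorphicOrderAt (P / Q) z := by
  rw [meromorphicOrderAt_div hP.meromorphicAt hQ.meromorphicAt, hP.meromorphicOrderAt_eq,
    hQ.meromorphicOrderAt_eq]
  lift analyticOrderAt Q z to ℕ using htop with n hn
  cases hm : analyticOrderAt P z with
  | top => simp
  | coe m =>
    rw [hm] at hle
    have hnm : n ≤ m := by exact_mod_cast hle
    simp only [ENat.map_natCast]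
    have h : ((m : ℤ) : WithTop ℤ) - ((n : ℤ) : WithTop ℤ) = (((m : ℤ) - (n : ℤ) : ℤ) : WithTop ℤ) := by
      rfl
    rw [h]
    exact_mod_cast sub_nonneg.mpr (Int.ofNat_le.mpr hnm)

/-- If `q ≠ 0` vanishes at every point to order at most that of `p`, then `p / q` is holomorphic. -/
theorem exists_mdiff_div (p q : ℍ → ℂ) (hp : MDiff p) (hq : MDiff q) (hq0 : q ≠ 0)
    (hord : ∀ z : ℍ, analyticOrderAt (q ∘ ofComplex) (z : ℂ) ≤
      analyticOrderAt (p ∘ ofComplex) (z : ℂ)) :
    ∃ f : ℍ → ℂ, MDiff f ∧ f * q = p := by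
  set U : Set ℂ := {z : ℂ | 0 < z.im} with hU
  have hUo : IsOpen U := isOpen_upperHalfPlaneSet
  have hPa : AnalyticOnNhd ℂ (p ∘ ofComplex) U := div_analyticOnNhd p hp
  have hQa : AnalyticOnNhd ℂ (q ∘ ofComplex) U := div_analyticOnNhd q hq
  set P : ℂ → ℂ := p ∘ ofComplex with hP
  set Q : ℂ → ℂ := q ∘ ofComplex with hQ
  set R : ℂ → ℂ := P / Q with hR
  have hRM : MeromorphicOn R U := fun z hz =>
    (hPa z hz).meromorphicAt.div (hQa z hz).meromorphicAt
  have hRord : ∀ z ∈ U, 0 ≤ meromorphicOrderAt R z := fun z hz =>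
    div_meromorphicOrderAt_div_nonneg (hPa z hz) (hQa z hz)
      (analyticOrderAt_ne_top_of_ne_zero q hq hq0 ⟨z, hz⟩) (hord ⟨z, hz⟩)
  set G : ℂ → ℂ := toMeromorphicNFOn R U with hG
  have hGa : ∀ z ∈ U, AnalyticAt ℂ G z := by
    intro z hz
    have hNF : MeromorphicNFAt G z := meromorphicNFOn_toMeromorphicNFOn R U hz
    rw [← hNF.meromorphicOrderAt_nonneg_iff_analyticAt, hG,
      meromorphicOrderAt_toMeromorphicNFOn hRM hz]
    exact hRord z hz
  refine ⟨fun τ => G τ, ?_, ?_⟩
  · rw [UpperHalfPlane.mdifferentiable_iff]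
    have hGd : DifferentiableOn ℂ G U := fun z hz =>
      (hGa z hz).differentiableAt.differentiableWithinAt
    refine hGd.congr fun z hz => ?_
    change 0 < z.im at hz
    simp [Function.comp_apply, ofComplex_apply_of_im_pos hz]
  · funext τ
    simp only [Pi.mul_apply]
    have hz : (τ : ℂ) ∈ U := τ.im_pos
    by_cases hτ : q τ = 0
    · have hQ0 : analyticOrderAt Q τ ≠ 0 :=
        (hQa _ hz).analyticOrderAt_ne_zero.mpr (by rw [hQ, div_comp_ofComplex_apply]; exact hτ)
      have hP0 : analyticOrderAt P τ ≠ 0 := fun h0 =>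
        hQ0 (le_antisymm (h0 ▸ hord τ) zero_le)
      have hPτ := (hPa _ hz).analyticOrderAt_ne_zero.mp hP0
      rw [hP, div_comp_ofComplex_apply] at hPτ
      rw [hτ, mul_zero, hPτ]
    · have hQτ : Q τ ≠ 0 := by rw [hQ, div_comp_ofComplex_apply]; exact hτ
      have hRa : AnalyticAt ℂ R τ := (hPa _ hz).div (hQa _ hz) hQτ
      have hGτ : G τ = R τ := by
        rw [hG, toMeromorphicNFOn_eq_toMeromorphicNFAt hRM hz,
          toMeromorphicNFAt_eq_self.2 hRa.meromorphicNFAt]
      rw [hGτ, hR, Pi.div_apply, hP, hQ, div_comp_ofComplex_apply, div_comp_ofComplex_apply]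
      field_simp

end Fermat.Agent.X0Bridge
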