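import Fermat.Agent.X0Fld.Datum
import Fermat.Agent.X0Bridge.Div

/-!
# Orders of the local expansions of quotients, in analytic terms (package BRIDGE)
-/

set_option autoImplicit false

open UpperHalfPlane ModularForm CongruenceSubgroup
open scoped MatrixGroups Manifold

namespace Fermat.Agent.X0Bridge

open Fermat.Agent.X0Fld Fermat.Agent.CoverL

/-- order of vanishing of a function on `ℍ` at a point, as an integer (junk `0` for the zero
function) -/
noncomputable def ordAt (h : ℍ → ℂ) (z : ℍ) : ℤ :=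
  ((analyticOrderAt (h ∘ ofComplex) (z : ℂ)).toNat : ℤ)

theorem ordAt_nonneg (h : ℍ → ℂ) (z : ℍ) : 0 ≤ ordAt h z := by
  unfold ordAt; positivity

theorem ordAt_mul (p q : ℍ → ℂ) (hp : MDiff p) (hq : MDiff q) (hp0 : p ≠ 0) (hq0 : q ≠ 0)
    (z : ℍ) : ordAt (p * q) z = ordAt p z + ordAt q z := by
  unfold ordAt
  rw [analyticOrderAt_mul_of_mdiff p q hp hq z,
    ENat.toNat_add (analyticOrderAt_ne_top_of_ne_zero p hp hp0 z)
      (analyticOrderAt_ne_top_of_ne_zero q hq hq0 z), Nat.cast_add]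

theorem ordAt_eq_zero_of_ne_zero (h : ℍ → ℂ) (z : ℍ) (hz : h z ≠ 0) : ordAt h z = 0 := by
  have h0 : analyticOrderAt (h ∘ ofComplex) (z : ℂ) = 0 := by
    rw [analyticOrderAt_eq_zero]
    right
    rwa [Function.comp_apply, ofComplex_apply]
  unfold ordAt
  rw [h0]
  rfl

/-- the order of a nonzero Taylor series, read as a Laurent series, is the analytic order -/
theorem orders_order_ofPowerSeries_tay (z₀ : ℍ) {h : ℍ → ℂ} (H : MDiff h) (hne : h ≠ 0) :
    (HahnSeries.ofPowerSeries ℤ ℂ (tay z₀ h)).order = ordAt h z₀ := by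
  have htay : tay z₀ h ≠ 0 := fun h0 => hne ((tay_eq_zero_iff z₀ H).mp h0)
  have hord : (tay z₀ h).order ≠ ⊤ := fun h0 => htay (PowerSeries.order_eq_top.mp h0)
  obtain ⟨n, hn⟩ := ENat.ne_top_iff_exists.mp hord
  rw [pointsOrder_order_ofPowerSeries _ n hn.symm]
  unfold ordAt
  rw [← order_tay z₀ H, ← hn]
  rfl

/-- the order of a quotient of nonzero Laurent series -/
theorem orders_order_div (x y : LaurentSeries ℂ) (hx : x ≠ 0) (hy : y ≠ 0) :
    (x / y).order = x.order - y.order := by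
  have h1 : (x / y * y).order = (x / y).order + y.order :=
    HahnSeries.order_mul (div_ne_zero hx hy) hy
  rw [div_mul_cancel₀ x hy] at h1
  rw [h1, add_sub_cancel_right]

/-- the order of the expansion at the chosen point above `c` of an element of `B N` -/
theorem order_Tfin_algebraMap (N : ℕ) (c : ℂ) (h : B N) (hne : h ≠ 0) :
    (Tfin N c (algebraMap (B N) (Fld N) h)).order = ordAt (h : ℍ → ℂ) (zPt c) := by
  rw [Tfin_algebraMap]
  exact orders_order_ofPowerSeries_tay (zPt c) h.2.mdiff fun h0 => hne (Subtype.ext h0)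

/-- the order at `z` of a translate of `h` is the order of `h` at the translated point -/
theorem orders_ordAt_act_inv (γ : SL(2, ℤ)) (h : ℍ → ℂ) (H : MDiff h) (z : ℍ) :
    ordAt (act γ⁻¹ h) z = ordAt h (γ • z) := by
  have h1 : act γ⁻¹ h = fun z => h (γ • z) := by
    funext w
    rw [act_apply, inv_inv]
  unfold ordAt
  rw [h1, analyticOrderAt_comp_smul γ z H]

/-- the order of the expansion at `zPt c` of `ρ γ⁻¹ (a / b)` is `ord_{γ z_c} a - ord_{γ z_c} b` -/
theorem order_Tfin_rho_div (N : ℕ) (c : ℂ) (γ : SL(2, ℤ)) (a b : B N) (ha : a ≠ 0) (hb : b ≠ 0) :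
    (Tfin N c (rho N γ⁻¹ (algebraMap (B N) (Fld N) a / algebraMap (B N) (Fld N) b))).order
      = ordAt (a : ℍ → ℂ) (γ • zPt c) - ordAt (b : ℍ → ℂ) (γ • zPt c) := by
  have ha' : actB N γ⁻¹ a ≠ 0 := (map_ne_zero_iff _ (actB N γ⁻¹).injective).mpr ha
  have hb' : actB N γ⁻¹ b ≠ 0 := (map_ne_zero_iff _ (actB N γ⁻¹).injective).mpr hb
  have hinj : Function.Injective (fun h : B N => Tfin N c (algebraMap (B N) (Fld N) h)) :=
    (Tfin N c).toRingHom.injective.comp (IsFractionRing.injective (B N) (Fld N))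
  have hTa : Tfin N c (algebraMap (B N) (Fld N) (actB N γ⁻¹ a)) ≠ 0 := by
    intro h0
    exact ha' (hinj (by simpa using h0))
  have hTb : Tfin N c (algebraMap (B N) (Fld N) (actB N γ⁻¹ b)) ≠ 0 := by
    intro h0
    exact hb' (hinj (by simpa using h0))
  rw [map_div₀, rho_algebraMap, rho_algebraMap, map_div₀, orders_order_div _ _ hTa hTb,
    order_Tfin_algebraMap N c _ ha', order_Tfin_algebraMap N c _ hb', coe_actB, coe_actB,
    orders_ordAt_act_inv γ _ a.2.mdiff, orders_ordAt_act_inv γ _ b.2.mdiff]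

/-- the order of the expansion at `i∞` of `ρ γ⁻¹ (a / b)` -/
theorem order_Tinf_rho_div (N : ℕ) [NeZero N] (γ : SL(2, ℤ)) (a b : B N) (ha : a ≠ 0)
    (hb : b ≠ 0) :
    (Tinf N (rho N γ⁻¹ (algebraMap (B N) (Fld N) a / algebraMap (B N) (Fld N) b))).order
      = (TinfB N (actB N γ⁻¹ a)).order - (TinfB N (actB N γ⁻¹ b)).order := by
  have ha' : actB N γ⁻¹ a ≠ 0 := (map_ne_zero_iff _ (actB N γ⁻¹).injective).mpr ha
  have hb' : actB N γ⁻¹ b ≠ 0 := (map_ne_zero_iff _ (actB N γ⁻¹).injective).mpr hb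
  have hTa : TinfB N (actB N γ⁻¹ a) ≠ 0 := (map_ne_zero_iff _ (TinfB_injective N)).mpr ha'
  have hTb : TinfB N (actB N γ⁻¹ b) ≠ 0 := (map_ne_zero_iff _ (TinfB_injective N)).mpr hb'
  rw [map_div₀, rho_algebraMap, rho_algebraMap, map_div₀, Tinf_algebraMap, Tinf_algebraMap,
    orders_order_div _ _ hTa hTb]

/-- a simple zero has order one -/
theorem orders_ordAt_eq_one (h : ℍ → ℂ) (H : MDiff h) (z : ℍ) (h0 : h z = 0)
    (h1 : deriv (h ∘ ofComplex) (z : ℂ) ≠ 0) : ordAt h z = 1 := by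
  have h2 : analyticOrderAt (h ∘ ofComplex) (z : ℂ) = 1 := by
    rw [← order_tay z H]
    exact order_tay_eq_one z H h0 h1
  unfold ordAt
  rw [h2]
  rfl

/-- zeros of `E₄` are simple and occur exactly where `j = 0` -/
theorem ordAt_E₄ (z : ℍ) : ordAt (⇑E₄) z = if X0L1.jFun z = 0 then 1 else 0 := by
  split_ifs with h
  · have h0 : E₄ z = 0 := (X0L1.jFun_eq_zero_iff z).mp h
    exact orders_ordAt_eq_one _ (ModularFormClass.holo E₄) z h0 (X0L1.deriv_E₄_ne_zero h0)
  · exact ordAt_eq_zero_of_ne_zero _ z fun h0 => h ((X0L1.jFun_eq_zero_iff z).mpr h0)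

/-- zeros of `E₆` are simple and occur exactly where `j = 1728` -/
theorem ordAt_E₆ (z : ℍ) : ordAt (⇑E₆) z = if X0L1.jFun z = 1728 then 1 else 0 := by
  split_ifs with h
  · have h0 : E₆ z = 0 := (X0L1.jFun_eq_1728_iff z).mp h
    exact orders_ordAt_eq_one _ (ModularFormClass.holo E₆) z h0 (X0L1.deriv_E₆_ne_zero h0)
  · exact ordAt_eq_zero_of_ne_zero _ z fun h0 => h ((X0L1.jFun_eq_1728_iff z).mpr h0)

theorem ordAt_discriminant (z : ℍ) : ordAt discriminant z = 0 :=
  ordAt_eq_zero_of_ne_zero _ z (ModularForm.discriminant_ne_zero z)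

/-- the local degree of `j` in terms of the orders of `E₄`, `E₆` -/
theorem dFin_eq (c : ℂ) (z : ℍ) (hz : X0L1.jFun z = c) :
    (dFin c : ℤ) = 1 + 2 * ordAt (⇑E₄) z + ordAt (⇑E₆) z := by
  rw [ordAt_E₄, ordAt_E₆, hz]
  unfold dFin
  by_cases h0 : c = 0
  · have h1 : c ≠ 1728 := by rw [h0]; norm_num
    rw [if_pos h0, if_pos h0, if_neg h1]
    norm_num
  · by_cases h1 : c = 1728
    · rw [if_neg h0, if_pos h1, if_neg h0, if_pos h1]
      norm_num
    · rw [if_neg h0, if_neg h1, if_neg h0, if_neg h1]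
      norm_num

end Fermat.Agent.X0Bridge
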