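import Fermat.Agent.X0Bridge.Backward
import Fermat.Agent.X0Bridge.Orders
import Fermat.Agent.X0Fld.CuspAsymp

/-!
# Elements of `L(W)`: vanishing at the cusps (package BRIDGE)
-/

set_option autoImplicit false

open UpperHalfPlane ModularForm CongruenceSubgroup
open scoped MatrixGroups Manifold

namespace Fermat.Agent.X0Bridge

open Fermat.Agent.X0Fld Fermat.Agent.CoverL Fermat.Agent.RRL

/-- the expansion of `E₄³E₆²/Δ²` at `i∞` has order `-2N` -/
theorem backwardCusp_order_b0 (N : ℕ) [NeZero N] :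
    (TinfB N (b0 N)).order = -(((2 : ℕ) : ℤ) * N) := by
  apply order_TinfB_eq N (b0 N) 2 1 one_ne_zero
  have h := (X0L1.tendsto_E₄_atImInfty.pow 3).mul (X0L1.tendsto_E₆_atImInfty.pow 2)
  rw [one_pow, one_pow, one_mul] at h
  refine h.congr (fun z => ?_)
  have hΔ : discriminant z ≠ 0 := discriminant_ne_zero z
  show _ = b0Fun z * discriminant z ^ 2
  unfold b0Fun
  field_simp

/-- Step 4 (cusps): the conditions of `mem_L_W_iff` at the cusps give vanishing at all cusps. -/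
theorem isZeroAtImInfty_slash_of_order_inf (N : ℕ) [NeZero N] (a b : B N) (ha : a ≠ 0)
    (hb : b ≠ 0) (f : ℍ → ℂ)
    (hf : ∀ z : ℍ, f z * ((b : ℍ → ℂ) z * discriminant z) = (a : ℍ → ℂ) z * (E₄ z ^ 2 * E₆ z))
    (hinf : ∀ γ : SL(2, ℤ), (N : ℤ) <
      (Tinf N (rho N γ⁻¹ (algebraMap (B N) (Fld N) a / algebraMap (B N) (Fld N) b))).order)
    (γ : SL(2, ℤ)) : IsZeroAtImInfty (f ∣[(2 : ℤ)] γ) := by
  have ha0 : actB N γ⁻¹ a ≠ 0 := fun h => ha ((actB N γ⁻¹).injective (by rw [h, map_zero]))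
  have hb0 : actB N γ⁻¹ b ≠ 0 := fun h => hb ((actB N γ⁻¹).injective (by rw [h, map_zero]))
  have hord := hinf γ
  rw [order_Tinf_rho_div N γ a b ha hb] at hord
  have hTa : TinfB N (actB N γ⁻¹ a) ≠ 0 :=
    fun h => ha0 (TinfB_injective N (by rw [h, map_zero]))
  have hTb0 : TinfB N (b0 N) ≠ 0 :=
    fun h => b0_ne_zero N (TinfB_injective N (by rw [h, map_zero]))
  have hmul : (TinfB N (actB N γ⁻¹ a * b0 N)).order =
      (TinfB N (actB N γ⁻¹ a)).order + (TinfB N (b0 N)).order := by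
    rw [map_mul, HahnSeries.order_mul hTa hTb0]
  rw [backwardCusp_order_b0] at hmul
  have hpt : ∀ z : ℍ, ((f ∣[(2 : ℤ)] γ) z * E₄ z * E₆ z / discriminant z) *
      ((actB N γ⁻¹ b : B N) : ℍ → ℂ) z = ((actB N γ⁻¹ a * b0 N : B N) : ℍ → ℂ) z := by
    intro z
    have e1 := slash_eq_of_mul_eq N a b f hf γ z
    have hΔ : discriminant z ≠ 0 := discriminant_ne_zero z
    have e2 : ((actB N γ⁻¹ a * b0 N : B N) : ℍ → ℂ) z =
        ((actB N γ⁻¹ a : B N) : ℍ → ℂ) z * (E₄ z ^ 3 * E₆ z ^ 2 / discriminant z ^ 2) := rfl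
    rw [e2]
    field_simp
    linear_combination E₄ z * E₆ z * e1
  have key := tendsto_zero_of_mul_eq N
    (fun z => (f ∣[(2 : ℤ)] γ) z * E₄ z * E₆ z / discriminant z)
    (actB N γ⁻¹ b) (actB N γ⁻¹ a * b0 N) hb0 hpt (-(N : ℤ)) (by rw [hmul]; push_cast; linarith)
  have hΔ := tendsto_discriminant_mul_qParam_zpow N
  have hE := X0L1.tendsto_E₄_atImInfty.mul X0L1.tendsto_E₆_atImInfty
  rw [one_mul] at hE
  have hlim := (key.mul hΔ).div hE one_ne_zero
  rw [zero_mul, zero_div] at hlim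
  refine Filter.Tendsto.congr' ?_ hlim
  filter_upwards [X0L1.tendsto_E₄_atImInfty.eventually_ne one_ne_zero,
    X0L1.tendsto_E₆_atImInfty.eventually_ne one_ne_zero] with z h4 h6
  have hΔz : discriminant z ≠ 0 := discriminant_ne_zero z
  have hq : Function.Periodic.qParam (N : ℝ) (z : ℂ) ≠ 0 := Function.Periodic.qParam_ne_zero _
  simp only [Pi.div_apply]
  rw [neg_neg, zpow_neg]
  field_simp

end Fermat.Agent.X0Bridge
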