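import Fermat.Agent.X0Bridge.Orders
import Fermat.Agent.Cover.Main

/-!
# Elements of `L(W)`: the holomorphic quotient (package BRIDGE)
-/

set_option autoImplicit false

open UpperHalfPlane ModularForm CongruenceSubgroup
open scoped MatrixGroups Manifold

namespace Fermat.Agent.X0Bridge

open Fermat.Agent.X0Fld Fermat.Agent.CoverL Fermat.Agent.RRL

theorem backwardDiv_E₄_ne_zero : (⇑E₄ : ℍ → ℂ) ≠ 0 := by
  intro h
  rcases X0L1.E₄_ne_zero_or_E₆_ne_zero UpperHalfPlane.I with h4 | h6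
  · exact h4 (by rw [h]; rfl)
  · exact h6 ((X0L1.jFun_eq_1728_iff _).mp X0L1.jFun_I)

theorem backwardDiv_E₆_ne_zero : (⇑E₆ : ℍ → ℂ) ≠ 0 := by
  intro h
  rcases X0L1.E₄_ne_zero_or_E₆_ne_zero UpperHalfPlane.ρ with h4 | h6
  · exact h4 ((X0L1.jFun_eq_zero_iff _).mp X0L1.jFun_ρ)
  · exact h6 (by rw [h]; rfl)

theorem backwardDiv_discriminant_ne_zero : (discriminant : ℍ → ℂ) ≠ 0 := by
  intro h
  exact discriminant_ne_zero UpperHalfPlane.I (by rw [h]; rfl)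

theorem backwardDiv_mul_ne_zero {p q : ℍ → ℂ} (hp : MDiff p) (hq : MDiff q) (hp0 : p ≠ 0)
    (hq0 : q ≠ 0) : p * q ≠ 0 := by
  intro h
  rcases (UpperHalfPlane.mul_eq_zero_iff hp hq).mp h with h | h
  · exact hp0 h
  · exact hq0 h

/-- for nonzero holomorphic functions, comparison of `analyticOrderAt` reduces to `ordAt` -/
theorem backwardDiv_analyticOrderAt_le {p q : ℍ → ℂ} (hp : MDiff p) (hq : MDiff q) (hp0 : p ≠ 0)
    (hq0 : q ≠ 0) (z : ℍ) (h : ordAt q z ≤ ordAt p z) :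
    analyticOrderAt (q ∘ ofComplex) (z : ℂ) ≤ analyticOrderAt (p ∘ ofComplex) (z : ℂ) := by
  have h1 := analyticOrderAt_ne_top_of_ne_zero p hp hp0 z
  have h2 := analyticOrderAt_ne_top_of_ne_zero q hq hq0 z
  unfold ordAt at h
  rw [← ENat.natCast_toNat h1, ← ENat.natCast_toNat h2]
  exact_mod_cast h

/-- Step 1 (division): if `a / b` satisfies the conditions of `mem_L_W_iff` at the finite points
then `a E₄² E₆ / (b Δ)` is holomorphic. -/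
theorem exists_mdiff_of_order_fin (N : ℕ) [NeZero N] (a b : B N) (ha : a ≠ 0) (hb : b ≠ 0)
    (hfin : ∀ (c : ℂ) (γ : SL(2, ℤ)), -(dFin c : ℤ) <
      (Tfin N c (rho N γ⁻¹ (algebraMap (B N) (Fld N) a / algebraMap (B N) (Fld N) b))).order) :
    ∃ f : ℍ → ℂ, MDiff f ∧ ∀ z : ℍ,
      f z * ((b : ℍ → ℂ) z * discriminant z) = (a : ℍ → ℂ) z * (E₄ z ^ 2 * E₆ z) := by
  have ha0 : (a : ℍ → ℂ) ≠ 0 := fun h => ha (Subtype.ext h)
  have hb0 : (b : ℍ → ℂ) ≠ 0 := fun h => hb (Subtype.ext h)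
  have hE4 : MDiff (⇑E₄ : ℍ → ℂ) := E₄.holo'
  have hE6 : MDiff (⇑E₆ : ℍ → ℂ) := E₆.holo'
  have h44 : MDiff ((⇑E₄ : ℍ → ℂ) * ⇑E₄) := hE4.mul hE4
  have h446 : MDiff ((⇑E₄ : ℍ → ℂ) * ⇑E₄ * ⇑E₆) := h44.mul hE6
  have h44ne : (⇑E₄ : ℍ → ℂ) * ⇑E₄ ≠ 0 :=
    backwardDiv_mul_ne_zero hE4 hE4 backwardDiv_E₄_ne_zero backwardDiv_E₄_ne_zero
  have h446ne : (⇑E₄ : ℍ → ℂ) * ⇑E₄ * ⇑E₆ ≠ 0 :=
    backwardDiv_mul_ne_zero h44 hE6 h44ne backwardDiv_E₆_ne_zero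
  have hp : MDiff ((a : ℍ → ℂ) * ((⇑E₄ : ℍ → ℂ) * ⇑E₄ * ⇑E₆)) := a.2.mdiff.mul h446
  have hq : MDiff ((b : ℍ → ℂ) * discriminant) := b.2.mdiff.mul mdiff_discriminant
  have hp0 : (a : ℍ → ℂ) * ((⇑E₄ : ℍ → ℂ) * ⇑E₄ * ⇑E₆) ≠ 0 :=
    backwardDiv_mul_ne_zero a.2.mdiff h446 ha0 h446ne
  have hq0 : (b : ℍ → ℂ) * discriminant ≠ 0 :=
    backwardDiv_mul_ne_zero b.2.mdiff mdiff_discriminant hb0 backwardDiv_discriminant_ne_zero
  obtain ⟨f, hf, hfq⟩ := exists_mdiff_div _ _ hp hq hq0 (fun z => by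
    refine backwardDiv_analyticOrderAt_le hp hq hp0 hq0 z ?_
    obtain ⟨γ, hγ⟩ := exists_smul_zPt z
    have h1 := hfin (X0L1.jFun z) γ
    rw [order_Tfin_rho_div N _ γ a b ha hb, hγ, dFin_eq (X0L1.jFun z) z rfl] at h1
    rw [ordAt_mul _ _ b.2.mdiff mdiff_discriminant hb0 backwardDiv_discriminant_ne_zero,
      ordAt_discriminant, ordAt_mul _ _ a.2.mdiff h446 ha0 h446ne,
      ordAt_mul _ _ h44 hE6 h44ne backwardDiv_E₆_ne_zero,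
      ordAt_mul _ _ hE4 hE4 backwardDiv_E₄_ne_zero backwardDiv_E₄_ne_zero]
    omega)
  refine ⟨f, hf, fun z => ?_⟩
  have := congrFun hfq z
  simp only [Pi.mul_apply] at this
  rw [this]
  ring

end Fermat.Agent.X0Bridge
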