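import Fermat.Agent.X0Bridge.Backward
import Fermat.Agent.X0Bridge.BackwardDiv
import Fermat.Agent.X0Bridge.BackwardCusp

/-!
# Elements of `L(W)` come from cusp forms (package BRIDGE)
-/

set_option autoImplicit false

open UpperHalfPlane ModularForm CongruenceSubgroup
open scoped MatrixGroups Manifold

namespace Fermat.Agent.X0Bridge

open Fermat.Agent.X0Fld Fermat.Agent.CoverL Fermat.Agent.RRL

/-- A holomorphic function which is weight-`k` invariant under `Γ₀(N)` and vanishes at all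
cusps is a cusp form. -/
theorem bmain_exists_cuspForm (N : ℕ) [NeZero N] (k : ℤ) (g : ℍ → ℂ) (hol : MDiff g)
    (hinv : ∀ γ : SL(2, ℤ), γ ∈ Gamma0 N → g ∣[k] γ = g)
    (hcusp : ∀ γ : SL(2, ℤ), IsZeroAtImInfty (g ∣[k] γ)) :
    ∃ G : CuspForm (Gamma0 N) k, ⇑G = g := by
  refine ⟨{ toFun := g
            slash_action_eq' := ?_
            holo' := hol
            zero_at_cusps' := ?_ }, rfl⟩
  · rintro γ' ⟨γ, hγ, rfl⟩
    exact hinv γ hγ
  · intro c hc
    rw [Subgroup.IsArithmetic.isCusp_iff_isCusp_SL2Z] at hc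
    rw [OnePoint.isZeroAt_iff_forall_SL2Z hc]
    intro γ _
    exact hcusp γ

/-- Every element of `L(W)` is `x_f` for a cusp form `f` of weight 2 on `Γ₀(N)`. -/
theorem exists_cuspForm_of_mem_L (N : ℕ) [NeZero N] (x : (datum N).F)
    (hx : x ∈ (datum N).preCurve.L (datum N).W) :
    ∃ f : CuspForm (Gamma0 N) 2, xLin N f = (x : Fld N) := by
  by_cases hx0 : x = 0
  · refine ⟨0, ?_⟩
    rw [map_zero, hx0]
    rfl
  rw [CoverDatum.mem_L_W_iff] at hx
  obtain ⟨hfin, hinf⟩ := hx.resolve_left hx0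
  -- write `x` as a fraction
  obtain ⟨a, b, hb, hab⟩ := IsFractionRing.div_surjective (A := B N) (x : Fld N)
  have hb0 : b ≠ 0 := nonZeroDivisors.ne_zero hb
  have hx0' : (x : Fld N) ≠ 0 := fun h => hx0 (Subtype.ext h)
  have ha0 : a ≠ 0 := by
    rintro rfl
    apply hx0'
    rw [← hab, map_zero, zero_div]
  have hfin' : ∀ (c : ℂ) (γ : SL(2, ℤ)), -(dFin c : ℤ) <
      (Tfin N c (rho N γ⁻¹ (algebraMap (B N) (Fld N) a / algebraMap (B N) (Fld N) b))).order := by
    intro c γ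
    rw [hab]
    exact hfin c γ
  have hinf' : ∀ γ : SL(2, ℤ), (N : ℤ) <
      (Tinf N (rho N γ⁻¹ (algebraMap (B N) (Fld N) a / algebraMap (B N) (Fld N) b))).order := by
    intro γ
    rw [hab]
    exact hinf γ
  obtain ⟨f, hfm, hf⟩ := exists_mdiff_of_order_fin N a b ha0 hb0 hfin'
  have hF : algebraMap (B N) (Fld N) a / algebraMap (B N) (Fld N) b ∈ (datum N).F := by
    rw [hab]
    exact x.2
  have hinv := slashInv_of_mem_F N a b hb0 f hfm hf hF
  have hcusp := isZeroAtImInfty_slash_of_order_inf N a b ha0 hb0 f hf hinf'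
  obtain ⟨G, hG⟩ := bmain_exists_cuspForm N 2 f hfm hinv hcusp
  refine ⟨G, ?_⟩
  have hb' : algebraMap (B N) (Fld N) b ≠ 0 :=
    (map_ne_zero_iff _ (IsFractionRing.injective (B N) (Fld N))).2 hb0
  have hb0' : algebraMap (B N) (Fld N) (b0 N) ≠ 0 :=
    (map_ne_zero_iff _ (IsFractionRing.injective (B N) (Fld N))).2 (b0_ne_zero N)
  rw [xLin_apply, ← hab, div_eq_div_iff hb0' hb', ← map_mul, ← map_mul]
  congr 1
  apply Subtype.ext
  funext z
  show aFun (⇑G) z * (b : ℍ → ℂ) z = (a : ℍ → ℂ) z * b0Fun z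
  rw [hG]
  unfold aFun b0Fun
  have hΔ : discriminant z ≠ 0 := discriminant_ne_zero z
  have h := hf z
  rw [div_mul_eq_mul_div, mul_div_assoc', div_eq_div_iff hΔ (pow_ne_zero 2 hΔ)]
  linear_combination (E₄ z * E₆ z * discriminant z) * h

end Fermat.Agent.X0Bridge
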