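import Fermat.Agent.X0Fld.Datum

/-!
# The functions `f E₄ E₆ / Δ` and `E₄³ E₆² / Δ²` (package BRIDGE)

A cusp form `f` of weight 2 on `Γ₀(N)` corresponds to the modular function
`x_f = f / j' = (f E₄ E₆ / Δ) / (E₄³ E₆² / Δ²)` up to the constant `-2πi`
(`j' = -2πi E₄² E₆ / Δ`).
-/

set_option autoImplicit false

open UpperHalfPlane ModularForm CongruenceSubgroup
open scoped MatrixGroups Manifold

namespace Fermat.Agent.X0Bridge

open Fermat.Agent.X0Fld Fermat.Agent.CoverL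

/-- `E₄³ E₆² / Δ²` -/
noncomputable def b0Fun : ℍ → ℂ := fun z => E₄ z ^ 3 * E₆ z ^ 2 / discriminant z ^ 2

/-- `E₄³ E₆² / Δ²` is invariant under all of `SL(2,ℤ)`. -/
theorem forms_b0Fun_smul (γ : SL(2, ℤ)) (z : ℍ) : b0Fun (γ • z) = b0Fun z := by
  simp only [b0Fun]
  rw [X0L1.E₄_smul, X0L1.E₆_smul, X0L1.discriminant_smul]
  have hd : denom γ z ≠ 0 := denom_ne_zero γ z
  have hΔ := ModularForm.discriminant_ne_zero z
  field_simp

/-- `E₄ E₆ → 1` at `i∞`. -/
theorem forms_tendsto_E₄_mul_E₆ :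
    Filter.Tendsto (fun z : ℍ => E₄ z * E₆ z) atImInfty (nhds 1) := by
  simpa using X0L1.tendsto_E₄_atImInfty.mul X0L1.tendsto_E₆_atImInfty

/-- `E₄ E₆` is bounded at `i∞`. -/
theorem forms_bdd_E₄_mul_E₆ : IsBoundedAtImInfty (fun z : ℍ => E₄ z * E₆ z) :=
  forms_tendsto_E₄_mul_E₆.isBigO_one ℝ

/-- `E₄ E₆` is not the zero function. -/
theorem forms_E₄_mul_E₆_ne_zero : (fun z : ℍ => E₄ z * E₆ z) ≠ 0 := by
  intro h
  have h1 := forms_tendsto_E₄_mul_E₆
  rw [h] at h1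
  have h2 : Filter.Tendsto (0 : ℍ → ℂ) atImInfty (nhds 0) := tendsto_const_nhds
  exact one_ne_zero (tendsto_nhds_unique h1 h2)

theorem isWH_b0Fun (N : ℕ) : IsWH N b0Fun where
  mdiff := by
    have h : MDiff (fun z : ℍ => E₄ z ^ 3 * E₆ z ^ 2 / discriminant z ^ 2) :=
      ((E₄.holo'.pow 3).mul (E₆.holo'.pow 2)).div (CuspForm.discriminant.holo'.pow 2)
        (fun z => pow_ne_zero 2 (ModularForm.discriminant_ne_zero z))
    exact h
  inv := fun γ _ z => forms_b0Fun_smul γ z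
  bdd := ⟨2, fun γ => by
    have h : IsBoundedAtImInfty (fun z : ℍ => E₄ z ^ 3 * E₆ z ^ 2) := by
      have h1 : Filter.Tendsto (fun z : ℍ => E₄ z ^ 3 * E₆ z ^ 2) atImInfty
          (nhds (1 ^ 3 * 1 ^ 2)) :=
        (X0L1.tendsto_E₄_atImInfty.pow 3).mul (X0L1.tendsto_E₆_atImInfty.pow 2)
      exact h1.isBigO_one ℝ
    refine h.congr' (Filter.Eventually.of_forall fun z => ?_) (Filter.EventuallyEq.refl _ _)
    show E₄ z ^ 3 * E₆ z ^ 2 = b0Fun (γ • z) * discriminant z ^ 2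
    rw [forms_b0Fun_smul, b0Fun,
      div_mul_cancel₀ _ (pow_ne_zero 2 (ModularForm.discriminant_ne_zero z))]⟩

/-- `E₄³ E₆² / Δ²` as an element of `B N`. -/
noncomputable def b0 (N : ℕ) : B N := ⟨b0Fun, isWH_b0Fun N⟩

theorem b0_ne_zero (N : ℕ) : b0 N ≠ 0 := by
  intro h
  apply forms_E₄_mul_E₆_ne_zero
  funext z
  have h1 : b0Fun z = 0 := congrFun (congrArg Subtype.val h) z
  have hΔ := ModularForm.discriminant_ne_zero z
  simp only [b0Fun, div_eq_zero_iff, mul_eq_zero, pow_eq_zero_iff, ne_eq, OfNat.ofNat_ne_zero,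
    not_false_eq_true, hΔ, or_false] at h1
  simpa using h1

theorem actB_b0 (N : ℕ) (γ : SL(2, ℤ)) : actB N γ (b0 N) = b0 N := by
  apply Subtype.ext
  rw [coe_actB]
  funext z
  rw [act_apply]
  exact forms_b0Fun_smul γ⁻¹ z

/-- `f E₄ E₆ / Δ` -/
noncomputable def aFun (f : ℍ → ℂ) : ℍ → ℂ := fun z => f z * E₄ z * E₆ z / discriminant z

/-- the action on `aFun f` is the weight-2 slash action on `f` -/
theorem act_inv_aFun (f : ℍ → ℂ) (γ : SL(2, ℤ)) : act γ⁻¹ (aFun f) = aFun (f ∣[(2 : ℤ)] γ) := by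
  funext z
  rw [act_apply, inv_inv]
  simp only [aFun]
  rw [ModularForm.SL_slash_apply, X0L1.E₄_smul, X0L1.E₆_smul, X0L1.discriminant_smul]
  have hd : denom γ z ≠ 0 := denom_ne_zero γ z
  have hΔ := ModularForm.discriminant_ne_zero z
  rw [zpow_neg]
  field_simp

/-- pointwise form of `act_inv_aFun` -/
theorem forms_aFun_smul (f : ℍ → ℂ) (γ : SL(2, ℤ)) (z : ℍ) :
    aFun f (γ • z) = aFun (f ∣[(2 : ℤ)] γ) z := by
  have h := congrFun (act_inv_aFun f γ) z
  rwa [act_apply, inv_inv] at h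

/-- cusp forms on `Γ₀(N)` are slash-invariant under the elements of `Γ₀(N)` -/
theorem forms_slash_Gamma0 {N : ℕ} {k : ℤ} (h : CuspForm (Gamma0 N) k) (γ : SL(2, ℤ))
    (hγ : γ ∈ Gamma0 N) : (⇑h) ∣[k] γ = ⇑h := by
  rw [ModularForm.SL_slash]
  exact SlashInvariantFormClass.slash_action_eq h (Matrix.SpecialLinearGroup.mapGL ℝ γ)
    ⟨γ, hγ, rfl⟩

/-- `Γ(N) ≤ Γ₀(N)` -/
theorem forms_Gamma_le_Gamma0 (N : ℕ) : Gamma N ≤ Gamma0 N := by
  intro A hA
  rw [Gamma_mem] at hA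
  rw [Gamma0_mem]
  exact hA.2.2.1

theorem isWH_aFun (N : ℕ) [NeZero N] (f : CuspForm (Gamma0 N) 2) : IsWH N (aFun f) where
  mdiff := by
    have h : MDiff (fun z : ℍ => f z * E₄ z * E₆ z / discriminant z) :=
      (((CuspFormClass.holo f).mul E₄.holo').mul E₆.holo').div CuspForm.discriminant.holo'
        ModularForm.discriminant_ne_zero
    exact h
  inv := fun γ hγ z => by
    rw [forms_aFun_smul, forms_slash_Gamma0 f γ (forms_Gamma_le_Gamma0 N hγ)]
  bdd := ⟨1, fun γ => by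
    have h0 : IsBoundedAtImInfty ((⇑f) ∣[(2 : ℤ)] γ) :=
      (CuspFormClass.zero_at_infty_slash f γ).boundedAtFilter
    refine (h0.mul forms_bdd_E₄_mul_E₆).congr' (Filter.Eventually.of_forall fun z => ?_)
      (Filter.EventuallyEq.refl _ _)
    show ((⇑f) ∣[(2 : ℤ)] γ) z * (E₄ z * E₆ z) = aFun f (γ • z) * discriminant z ^ 1
    rw [forms_aFun_smul, aFun, pow_one, div_mul_cancel₀ _ (ModularForm.discriminant_ne_zero z),
      mul_assoc]⟩

/-- `f ↦ f E₄ E₆ / Δ` as a linear map into `B N`. -/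
noncomputable def aLin (N : ℕ) [NeZero N] : CuspForm (Gamma0 N) 2 →ₗ[ℂ] B N where
  toFun f := ⟨aFun f, isWH_aFun N f⟩
  map_add' f g := by
    apply Subtype.ext
    funext z
    simp [aFun]
    ring
  map_smul' c f := by
    apply Subtype.ext
    funext z
    simp [aFun]
    ring

theorem coe_aLin (N : ℕ) [NeZero N] (f : CuspForm (Gamma0 N) 2) :
    ((aLin N f : B N) : ℍ → ℂ) = aFun f := rfl

theorem aLin_injective (N : ℕ) [NeZero N] : Function.Injective (aLin N) := by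
  rw [injective_iff_map_eq_zero]
  intro f hf
  have h0 : aFun f = 0 := congrArg Subtype.val hf
  have h1 : (⇑f : ℍ → ℂ) * (fun z : ℍ => E₄ z * E₆ z) = 0 := by
    funext z
    have h2 := congrFun h0 z
    have hΔ := ModularForm.discriminant_ne_zero z
    simp only [aFun, Pi.zero_apply, div_eq_zero_iff, hΔ, or_false] at h2
    simp only [Pi.mul_apply, Pi.zero_apply]
    rw [← mul_assoc]
    exact h2
  rcases (UpperHalfPlane.mul_eq_zero_iff (CuspFormClass.holo f) (E₄.holo'.mul E₆.holo')).mp h1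
    with h | h
  · exact DFunLike.coe_injective h
  · exact absurd h forms_E₄_mul_E₆_ne_zero

theorem actB_aLin (N : ℕ) [NeZero N] (f : CuspForm (Gamma0 N) 2) {γ : SL(2, ℤ)}
    (hγ : γ ∈ Gamma0 N) : actB N γ (aLin N f) = aLin N f := by
  apply Subtype.ext
  rw [coe_actB, coe_aLin]
  have h := act_inv_aFun f γ⁻¹
  rw [inv_inv, forms_slash_Gamma0 f γ⁻¹ ((Gamma0 N).inv_mem hγ)] at h
  exact h

/-- `f ↦ x_f = (f E₄ E₆ / Δ) / (E₄³ E₆² / Δ²)` as a linear map into the field of modular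
functions. -/
noncomputable def xLin (N : ℕ) [NeZero N] : CuspForm (Gamma0 N) 2 →ₗ[ℂ] Fld N where
  toFun f := algebraMap (B N) (Fld N) (aLin N f) / algebraMap (B N) (Fld N) (b0 N)
  map_add' f g := by
    rw [map_add, map_add, add_div]
  map_smul' c f := by
    rw [map_smul, RingHom.id_apply, Algebra.smul_def, Algebra.smul_def, map_mul, mul_div_assoc,
      ← IsScalarTower.algebraMap_apply]

theorem xLin_apply (N : ℕ) [NeZero N] (f : CuspForm (Gamma0 N) 2) :
    xLin N f = algebraMap (B N) (Fld N) (aLin N f) / algebraMap (B N) (Fld N) (b0 N) := rfl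

/-- the image of `b0` in the field of modular functions is non-zero -/
theorem forms_algebraMap_b0_ne_zero (N : ℕ) : algebraMap (B N) (Fld N) (b0 N) ≠ 0 := by
  intro h
  rw [← map_zero (algebraMap (B N) (Fld N))] at h
  exact b0_ne_zero N (IsFractionRing.injective (B N) (Fld N) h)

theorem xLin_injective (N : ℕ) [NeZero N] : Function.Injective (xLin N) := by
  intro f g hfg
  rw [xLin_apply, xLin_apply] at hfg
  have h1 := (div_left_inj' (forms_algebraMap_b0_ne_zero N)).mp hfg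
  exact aLin_injective N (IsFractionRing.injective (B N) (Fld N) h1)

theorem xLin_mem_F (N : ℕ) [NeZero N] (f : CuspForm (Gamma0 N) 2) :
    xLin N f ∈ (datum N).F := by
  rw [CoverDatum.mem_F]
  intro h hh
  rw [datum_H] at hh
  rw [datum_ρ, xLin_apply, map_div₀, rho_algebraMap, rho_algebraMap, actB_aLin N f hh, actB_b0]

/-- for `γ : SL(2,ℤ)`: `ρ γ⁻¹ x_f = (f∣γ) E₄ E₆/Δ / b0` -/
theorem rho_inv_xLin (N : ℕ) [NeZero N] (f : CuspForm (Gamma0 N) 2) (γ : SL(2, ℤ)) :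
    rho N γ⁻¹ (xLin N f) =
      algebraMap (B N) (Fld N) (actB N γ⁻¹ (aLin N f)) / algebraMap (B N) (Fld N) (b0 N) := by
  rw [xLin_apply, map_div₀, rho_algebraMap, rho_algebraMap, actB_b0]

end Fermat.Agent.X0Bridge
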