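import Fermat.Agent.X0Bridge.Forms
import Fermat.Agent.X0Bridge.Orders
import Fermat.Agent.X0Fld.CuspAsymp
import Fermat.Agent.Cover.Main

/-!
# Cusp forms of weight 2 give elements of `L(W)` (package BRIDGE)
-/

set_option autoImplicit false

open UpperHalfPlane ModularForm CongruenceSubgroup
open scoped MatrixGroups Manifold

namespace Fermat.Agent.X0Bridge

open Fermat.Agent.X0Fld Fermat.Agent.CoverL Fermat.Agent.RRL

theorem forward_aLin_ne_zero (N : ℕ) [NeZero N] (f : CuspForm (Gamma0 N) 2) (hf : f ≠ 0) :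
    aLin N f ≠ 0 := by
  intro h
  exact hf (aLin_injective N (by rw [h, map_zero]))

theorem forward_coe_ne_zero (N : ℕ) (f : CuspForm (Gamma0 N) 2) (hf : f ≠ 0) :
    (⇑f : ℍ → ℂ) ≠ 0 := by
  intro h
  apply hf
  apply DFunLike.coe_injective
  rw [h]
  rfl

/-- a point where neither `E₄` nor `E₆` vanishes -/
theorem forward_exists_E_ne_zero : ∃ w : ℍ, E₄ w ≠ 0 ∧ E₆ w ≠ 0 := by
  have h := b0_ne_zero 1
  have h' : b0Fun ≠ 0 := fun h0 => h (Subtype.ext h0)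
  obtain ⟨w, hw⟩ := Function.ne_iff.mp h'
  refine ⟨w, ?_, ?_⟩
  · intro h4
    apply hw
    simp [b0Fun, h4]
  · intro h6
    apply hw
    simp [b0Fun, h6]

theorem forward_ordAt_pow (p : ℍ → ℂ) (hp : MDiff p) (w : ℍ) (hw : p w ≠ 0) (n : ℕ) (z : ℍ) :
    ordAt (p ^ n) z = n * ordAt p z := by
  have hp0 : p ≠ 0 := fun h => hw (by rw [h]; rfl)
  induction n with
  | zero =>
    rw [pow_zero, Nat.cast_zero, zero_mul]
    exact ordAt_eq_zero_of_ne_zero _ _ (by simp)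
  | succ n ih =>
    have hpn : p ^ n ≠ 0 := fun h => pow_ne_zero n hw (by
      have := congrFun h w
      simpa using this)
    rw [pow_succ, ordAt_mul _ _ (hp.pow n) hp hpn hp0, ih]
    push_cast
    ring

theorem forward_ordAt_aFun (N : ℕ) [NeZero N] (f : CuspForm (Gamma0 N) 2) (hf : f ≠ 0) (z : ℍ) :
    ordAt (aFun f) z = ordAt (⇑f) z + ordAt (⇑E₄) z + ordAt (⇑E₆) z := by
  obtain ⟨w, hw4, hw6⟩ := forward_exists_E_ne_zero
  have hf0 := forward_coe_ne_zero N f hf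
  have ha0 : aFun f ≠ 0 := fun h => forward_aLin_ne_zero N f hf (Subtype.ext h)
  have hΔ0 : (discriminant : ℍ → ℂ) ≠ 0 := fun h => discriminant_ne_zero w (by rw [h]; rfl)
  have hE4 : (⇑E₄ : ℍ → ℂ) ≠ 0 := fun h => hw4 (by rw [h]; rfl)
  have hE6 : (⇑E₆ : ℍ → ℂ) ≠ 0 := fun h => hw6 (by rw [h]; rfl)
  have hE46 : (⇑E₄ * ⇑E₆ : ℍ → ℂ) ≠ 0 := fun h => by
    have := congrFun h w
    simp only [Pi.mul_apply, Pi.zero_apply, mul_eq_zero] at this
    tauto
  have hmf : MDiff (⇑f : ℍ → ℂ) := CuspFormClass.holo f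
  have hm4 : MDiff (⇑E₄ : ℍ → ℂ) := ModularFormClass.holo E₄
  have hm6 : MDiff (⇑E₆ : ℍ → ℂ) := ModularFormClass.holo E₆
  have heq : aFun f * discriminant = ⇑f * (⇑E₄ * ⇑E₆) := by
    funext u
    simp only [Pi.mul_apply, aFun]
    have := discriminant_ne_zero u
    field_simp
  have h1 := ordAt_mul (aFun f) discriminant (isWH_aFun N f).mdiff mdiff_discriminant ha0 hΔ0 z
  rw [ordAt_discriminant, add_zero, heq, ordAt_mul _ _ hmf (hm4.mul hm6) hf0 hE46,
    ordAt_mul _ _ hm4 hm6 hE4 hE6] at h1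
  rw [← h1]
  ring

theorem forward_ordAt_b0Fun (z : ℍ) :
    ordAt b0Fun z = 3 * ordAt (⇑E₄) z + 2 * ordAt (⇑E₆) z := by
  obtain ⟨w, hw4, hw6⟩ := forward_exists_E_ne_zero
  have hb0 : b0Fun ≠ 0 := fun h => b0_ne_zero 1 (Subtype.ext h)
  have hm4 : MDiff (⇑E₄ : ℍ → ℂ) := ModularFormClass.holo E₄
  have hm6 : MDiff (⇑E₆ : ℍ → ℂ) := ModularFormClass.holo E₆
  have hΔ2 : (discriminant ^ 2 : ℍ → ℂ) ≠ 0 := fun h => by
    have := congrFun h w
    exact pow_ne_zero 2 (discriminant_ne_zero w) (by simpa using this)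
  have hE43 : ((⇑E₄) ^ 3 : ℍ → ℂ) ≠ 0 := fun h => by
    have := congrFun h w
    exact pow_ne_zero 3 hw4 (by simpa using this)
  have hE62 : ((⇑E₆) ^ 2 : ℍ → ℂ) ≠ 0 := fun h => by
    have := congrFun h w
    exact pow_ne_zero 2 hw6 (by simpa using this)
  have heq : b0Fun * discriminant ^ 2 = (⇑E₄) ^ 3 * (⇑E₆) ^ 2 := by
    funext u
    simp only [Pi.mul_apply, Pi.pow_apply, b0Fun]
    have := discriminant_ne_zero u
    field_simp
  have h1 := ordAt_mul b0Fun (discriminant ^ 2) (isWH_b0Fun 1).mdiff (mdiff_discriminant.pow 2)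
    hb0 hΔ2 z
  rw [ordAt_eq_zero_of_ne_zero (discriminant ^ 2) z (by
      simpa using pow_ne_zero 2 (discriminant_ne_zero z)), add_zero, heq,
    ordAt_mul _ _ (hm4.pow 3) (hm6.pow 2) hE43 hE62,
    forward_ordAt_pow _ hm4 w hw4, forward_ordAt_pow _ hm6 w hw6] at h1
  rw [← h1]
  push_cast
  ring

/-- the condition of `mem_L_W_iff` at the finite points -/
theorem xLin_order_fin (N : ℕ) [NeZero N] (f : CuspForm (Gamma0 N) 2) (hf : f ≠ 0) (c : ℂ)
    (γ : SL(2, ℤ)) : -(dFin c : ℤ) < (Tfin N c (rho N γ⁻¹ (xLin N f))).order := by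
  rw [xLin_apply, order_Tfin_rho_div N c γ (aLin N f) (b0 N) (forward_aLin_ne_zero N f hf)
    (b0_ne_zero N)]
  have hz : X0L1.jFun (γ • zPt c) = c := by rw [X0L1.jFun_smul, jFun_zPt]
  have hd := dFin_eq c (γ • zPt c) hz
  have ha : ordAt ((aLin N f : B N) : ℍ → ℂ) (γ • zPt c) = _ :=
    forward_ordAt_aFun N f hf (γ • zPt c)
  have hb : ordAt ((b0 N : B N) : ℍ → ℂ) (γ • zPt c) = _ := forward_ordAt_b0Fun (γ • zPt c)
  rw [ha, hb, hd]
  have := ordAt_nonneg (⇑f) (γ • zPt c)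
  linarith

theorem forward_order_TinfB_b0 (N : ℕ) [NeZero N] : (TinfB N (b0 N)).order = -((2 : ℤ) * N) := by
  have h := order_TinfB_eq N (b0 N) 2 1 one_ne_zero (by
    have h1 : Filter.Tendsto (fun z : ℍ => E₄ z ^ 3 * E₆ z ^ 2) atImInfty (nhds ((1 : ℂ) ^ 3 * 1 ^ 2)) :=
      (X0L1.tendsto_E₄_atImInfty.pow 3).mul (X0L1.tendsto_E₆_atImInfty.pow 2)
    rw [one_pow, one_pow, one_mul] at h1
    refine h1.congr fun z => ?_
    show _ = b0Fun z * discriminant z ^ 2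
    have := discriminant_ne_zero z
    simp only [b0Fun]
    field_simp)
  rw [h]
  norm_num

/-- the condition of `mem_L_W_iff` at the cusps -/
theorem xLin_order_inf (N : ℕ) [NeZero N] (f : CuspForm (Gamma0 N) 2) (hf : f ≠ 0)
    (γ : SL(2, ℤ)) : (N : ℤ) < (Tinf N (rho N γ⁻¹ (xLin N f))).order := by
  have ha0 := forward_aLin_ne_zero N f hf
  rw [xLin_apply, order_Tinf_rho_div N γ (aLin N f) (b0 N) ha0 (b0_ne_zero N), actB_b0,
    forward_order_TinfB_b0]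
  have ha' : actB N γ⁻¹ (aLin N f) ≠ 0 := by
    intro h
    apply ha0
    apply (actB N γ⁻¹).injective
    rw [h, map_zero]
  have hcoe : ((actB N γ⁻¹ (aLin N f) : B N) : ℍ → ℂ) = aFun (⇑f ∣[(2 : ℤ)] γ) := by
    rw [coe_actB, coe_aLin, act_inv_aFun]
  have hzero : IsZeroAtImInfty (⇑f ∣[(2 : ℤ)] γ) := CuspFormClass.zero_at_infty_slash f γ
  have h := lt_order_TinfB N (actB N γ⁻¹ (aLin N f)) ha' 1 (by
    have h1 : Filter.Tendsto (fun z : ℍ => (⇑f ∣[(2 : ℤ)] γ) z * E₄ z * E₆ z) atImInfty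
        (nhds ((0 : ℂ) * 1 * 1)) :=
      (hzero.mul X0L1.tendsto_E₄_atImInfty).mul X0L1.tendsto_E₆_atImInfty
    rw [zero_mul, zero_mul] at h1
    refine h1.congr fun z => ?_
    rw [hcoe]
    have := discriminant_ne_zero z
    simp only [aFun]
    field_simp)
  push_cast at h
  linarith

theorem xLin_mem_L (N : ℕ) [NeZero N] (f : CuspForm (Gamma0 N) 2) :
    (⟨xLin N f, xLin_mem_F N f⟩ : (datum N).F) ∈ (datum N).preCurve.L (datum N).W := by
  rw [(datum N).mem_L_W_iff]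
  by_cases hf : f = 0
  · left
    apply Subtype.ext
    show xLin N f = 0
    rw [hf, map_zero]
  · right
    exact ⟨fun c γ => xLin_order_fin N f hf c γ, fun γ => xLin_order_inf N f hf γ⟩

end Fermat.Agent.X0Bridge
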