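import Fermat.Agent.X0Bridge.Forward
import Fermat.Agent.X0Bridge.BackwardMain
import Fermat.Agent.X0Bridge.DegW
import Fermat.Prelude.Def_ModularCurve_GenusNumerics

/-!
# `dim S₂(Γ₀(N)) = genus formula` (package BRIDGE, final assembly)
-/

set_option autoImplicit false

open UpperHalfPlane ModularForm CongruenceSubgroup
open scoped MatrixGroups Manifold

namespace Fermat.Agent.X0Bridge

open Fermat.Agent.X0Fld Fermat.Agent.CoverL Fermat.Agent.RRL

/-- `f ↦ x_f` as a linear map `S₂(Γ₀(N)) → L(W)`. -/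
noncomputable def cuspMap (N : ℕ) [NeZero N] :
    CuspForm (Gamma0 N) 2 →ₗ[ℂ] ↥((datum N).preCurve.L (datum N).W) where
  toFun f := ⟨⟨xLin N f, xLin_mem_F N f⟩, xLin_mem_L N f⟩
  map_add' f g := by
    apply Subtype.ext
    apply Subtype.ext
    show xLin N (f + g) = xLin N f + xLin N g
    rw [map_add]
  map_smul' c f := by
    apply Subtype.ext
    apply Subtype.ext
    show xLin N (c • f) = c • xLin N f
    rw [map_smul]

theorem cuspMap_coe (N : ℕ) [NeZero N] (f : CuspForm (Gamma0 N) 2) :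
    (((cuspMap N f : ↥((datum N).preCurve.L (datum N).W)) : (datum N).F) : Fld N) = xLin N f :=
  rfl

theorem cuspMap_bijective (N : ℕ) [NeZero N] : Function.Bijective (cuspMap N) := by
  constructor
  · intro f g hfg
    apply xLin_injective N
    rw [← cuspMap_coe, ← cuspMap_coe, hfg]
  · rintro ⟨x, hx⟩
    obtain ⟨f, hf⟩ := exists_cuspForm_of_mem_L N x hx
    refine ⟨f, ?_⟩
    apply Subtype.ext
    apply Subtype.ext
    exact hf

/-- `S₂(Γ₀(N)) ≃ L(W)`, `f ↦ f / j'`. -/
noncomputable def cuspEquiv (N : ℕ) [NeZero N] :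
    CuspForm (Gamma0 N) 2 ≃ₗ[ℂ] ↥((datum N).preCurve.L (datum N).W) :=
  LinearEquiv.ofBijective (cuspMap N) (cuspMap_bijective N)

/-- `dim S₂(Γ₀(N)) = ℓ(W)`. -/
theorem finrank_eq_finrank_L (N : ℕ) [NeZero N] :
    Module.finrank ℂ (CuspForm (Gamma0 N) 2)
      = Module.finrank ℂ ↥((datum N).preCurve.L (datum N).W) :=
  (cuspEquiv N).finrank_eq

theorem finrank_cuspForm_eq (N : ℕ) [NeZero N] :
    (Module.finrank ℂ (CuspForm (Gamma0 N) 2) : ℚ) = ModularCurve.genusFormula N := by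
  have h1 := finrank_eq_finrank_L N
  have h2 := ((datum N).two_mul_finrank_L).2
  have h3 := deg_W_eq N
  have h2' : (2 : ℚ) * (Module.finrank ℂ ↥((datum N).preCurve.L (datum N).W) : ℚ)
      = ((PreCurve.deg (datum N).W : ℤ) : ℚ) + 2 := by
    exact_mod_cast h2
  rw [h1]
  linarith

end Fermat.Agent.X0Bridge
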